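/-
S18lib / Tame / ZeroPole  (helper5)

Generic facts (any constant field `K`, function field `F`, Prelude language): the zero divisor and
the pole divisor of a function, ultrametric behaviour of `Place.ord`, divisors of degree zero.
-/
import Mathlib
import Fermat.Agent.S18lib.Setup.DivLemmas

set_option autoImplicit false

noncomputable section

namespace Fermat.Agent.S18lib.Tame

open AlgebraicCurve

variable {K F : Type*} [Field K] [Field F] [Algebra K F]

/-! ### `Place.ord` : membership and the ultrametric inequality -/

theorem adicValuation_le_one_iff_mem (v : Place K F) (f : F) :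
    v.adicValuation f ≤ 1 ↔ f ∈ v.toValuationSubring := by
  constructor
  · intro h
    by_contra hf
    have hf0 : f ≠ 0 := fun h0 => hf (h0 ▸ v.toValuationSubring.zero_mem)
    have hinv : f⁻¹ ∈ v.toValuationSubring :=
      (v.toValuationSubring.mem_or_inv_mem f).resolve_left hf
    -- `f⁻¹` is a non-unit of the valuation ring, so its valuation is `< 1`
    have hnu : ¬ IsUnit (⟨f⁻¹, hinv⟩ : v.toValuationSubring) := by
      intro hu
      obtain ⟨u, hu⟩ := hu
      apply hf
      have h1 : ((u⁻¹ : v.toValuationSubringˣ) : v.toValuationSubring) * ⟨f⁻¹, hinv⟩ = 1 := by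
        rw [← hu]; exact Units.inv_mul u
      have h2 : (((u⁻¹ : v.toValuationSubringˣ) : v.toValuationSubring) : F) * f⁻¹ = 1 := by
        have := congrArg (Subtype.val) h1
        simpa using this
      have h3 : (((u⁻¹ : v.toValuationSubringˣ) : v.toValuationSubring) : F) = f := by
        field_simp at h2
        exact h2
      rw [← h3]
      exact ((u⁻¹ : v.toValuationSubringˣ) : v.toValuationSubring).2
    have hlt : v.adicValuation f⁻¹ < 1 := by
      have hle := v.adicValuation_le_one_of_mem hinv
      refine lt_of_le_of_ne hle ?_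
      intro h1
      exact hnu ((v.adicValuation_coe_eq_one_iff ⟨f⁻¹, hinv⟩).mp h1)
    rw [map_inv₀] at hlt
    have hpos : 0 < v.adicValuation f := by
      rw [zero_lt_iff]; exact v.adicValuation_ne_zero hf0
    have : 1 < v.adicValuation f := by
      by_contra hle
      push Not at hle
      have : 1 ≤ (v.adicValuation f)⁻¹ := by
        rw [one_le_inv₀ hpos]; exact hle
      exact absurd hlt (not_lt.mpr this)
    exact absurd h (not_le.mpr this)
  · exact v.adicValuation_le_one_of_mem

theorem ord_nonneg_iff_mem (v : Place K F) {f : F} (hf : f ≠ 0) :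
    0 ≤ v.ord f ↔ f ∈ v.toValuationSubring := by
  rw [← adicValuation_le_one_iff_mem, v.adicValuation_le_one_iff, or_iff_right hf]

theorem ord_neg_iff_not_mem (v : Place K F) {f : F} :
    v.ord f < 0 ↔ f ∉ v.toValuationSubring := by
  rw [← adicValuation_le_one_iff_mem, v.not_adicValuation_le_one_iff]

/-- ultrametric inequality, equality case -/
theorem ord_add_eq_of_lt (v : Place K F) {f g : F} (hf : f ≠ 0) (hg : g ≠ 0)
    (h : v.ord f < v.ord g) : v.ord (f + g) = v.ord f := by
  have hlt : v.adicValuation g < v.adicValuation f := by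
    rw [v.adicValuation_eq_exp_neg_ord hf, v.adicValuation_eq_exp_neg_ord hg, WithZero.exp_lt_exp]
    omega
  have := Valuation.map_add_eq_of_lt_left v.adicValuation hlt
  unfold Place.ord
  rw [this]

/-- constants have order `0` -/
theorem ord_const (v : Place K F) {c : K} (hc : c ≠ 0) : v.ord (algebraMap K F c) = 0 := by
  have h1 : algebraMap K F c ∈ v.toValuationSubring := v.algebraMap_mem' c
  have h2 : algebraMap K F c⁻¹ ∈ v.toValuationSubring := v.algebraMap_mem' c⁻¹
  have hmul : (⟨algebraMap K F c, h1⟩ : v.toValuationSubring) * ⟨algebraMap K F c⁻¹, h2⟩ = 1 := by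
    ext
    simp only [MulMemClass.mk_mul_mk, OneMemClass.coe_one]
    rw [← map_mul, mul_inv_cancel₀ hc, map_one]
  have hu : IsUnit (⟨algebraMap K F c, h1⟩ : v.toValuationSubring) := IsUnit.of_mul_eq_one _ hmul
  have := v.ord_coe_unit hu.unit
  simpa using this

/-- a pole of `y` is a pole of `y - c` of the same order -/
theorem ord_sub_const_of_neg (v : Place K F) {y : F} (c : K) (hy : v.ord y < 0) :
    v.ord (y - algebraMap K F c) = v.ord y := by
  rcases eq_or_ne c 0 with rfl | hc
  · simp
  have hy0 : y ≠ 0 := by
    rintro rfl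
    simp at hy
  have hc' : -algebraMap K F c ≠ 0 := neg_ne_zero.mpr ((map_ne_zero _).mpr hc)
  rw [sub_eq_add_neg]
  apply ord_add_eq_of_lt v hy0 hc'
  have : v.ord (-algebraMap K F c) = 0 := by
    rw [← map_neg]; exact ord_const v (neg_ne_zero.mpr hc)
  rw [this]; exact hy

/-- a non-pole of `y` is a non-pole of `y - c` -/
theorem ord_sub_const_nonneg (v : Place K F) {y : F} (c : K) (hy : 0 ≤ v.ord y)
    (hne : y - algebraMap K F c ≠ 0) : 0 ≤ v.ord (y - algebraMap K F c) := by
  rw [ord_nonneg_iff_mem v hne]
  rcases eq_or_ne y 0 with rfl | hy0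
  · rw [zero_sub]; exact neg_mem (v.algebraMap_mem' c)
  · exact sub_mem ((ord_nonneg_iff_mem v hy0).mp hy) (v.algebraMap_mem' c)

/-! ### positive and negative parts of a divisor -/

/-- positive part of a divisor -/
def posPart (E : Divisor K F) : Divisor K F :=
  E.mapRange (fun n : ℤ => max n 0) (by simp)

/-- negative part of a divisor -/
def negPart (E : Divisor K F) : Divisor K F :=
  E.mapRange (fun n : ℤ => max (-n) 0) (by simp)

@[simp] theorem posPart_apply (E : Divisor K F) (v : Place K F) : posPart E v = max (E v) 0 := by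
  simp [posPart]

@[simp] theorem negPart_apply (E : Divisor K F) (v : Place K F) : negPart E v = max (-E v) 0 := by
  simp [negPart]

theorem posPart_sub_negPart (E : Divisor K F) : posPart E - negPart E = E := by
  ext v
  rw [Finsupp.sub_apply, posPart_apply, negPart_apply]
  rcases le_total (E v) 0 with h | h
  · rw [max_eq_right h, max_eq_left (by omega)]; omega
  · rw [max_eq_left h, max_eq_right (by omega)]; omega

theorem posPart_nonneg (E : Divisor K F) : 0 ≤ posPart E := by
  intro v; simp

theorem negPart_nonneg (E : Divisor K F) : 0 ≤ negPart E := by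
  intro v; simp

/-- if `E = U - V` with `U, V ≥ 0` then `E⁺ ≤ U` -/
theorem posPart_le_of_eq_sub {E U V : Divisor K F} (hU : 0 ≤ U) (hV : 0 ≤ V) (h : E = U - V) :
    posPart E ≤ U := by
  intro v
  have h1 := hU v
  have h2 := hV v
  simp only [Finsupp.zero_apply] at h1 h2
  rw [posPart_apply, h, Finsupp.sub_apply]
  exact max_le (by omega) h1

/-- if `E = U - V` with `U, V ≥ 0` then `E⁻ ≤ V` -/
theorem negPart_le_of_eq_sub {E U V : Divisor K F} (hU : 0 ≤ U) (hV : 0 ≤ V) (h : E = U - V) :
    negPart E ≤ V := by
  intro v
  have h1 := hU v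
  have h2 := hV v
  simp only [Finsupp.zero_apply] at h1 h2
  rw [negPart_apply, h, Finsupp.sub_apply]
  exact max_le (by omega) h2

/-- an effective divisor of degree `0` is `0` (all places of positive degree) -/
theorem eq_zero_of_nonneg_of_degree_eq_zero (hdeg : ∀ v : Place K F, 0 < v.deg)
    {E : Divisor K F} (hE : 0 ≤ E) (h0 : Divisor.degree E = 0) : E = 0 := by
  classical
  have hsum : Divisor.degree E = ∑ v ∈ E.support, E v * (v.deg : ℤ) := by
    simp [Divisor.degree, Finsupp.liftAddHom_apply, Finsupp.sum]
  rw [hsum] at h0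
  have hnn : ∀ v ∈ E.support, 0 ≤ E v * (v.deg : ℤ) := fun v _ =>
    mul_nonneg (by simpa using hE v) (by positivity)
  have := (Finset.sum_eq_zero_iff_of_nonneg hnn).mp h0
  ext v
  rw [Finsupp.zero_apply]
  by_contra hv
  have hmem : v ∈ E.support := Finsupp.mem_support_iff.mpr hv
  have h1 := this v hmem
  have hd : (v.deg : ℤ) ≠ 0 := by
    have := hdeg v
    omega
  exact hv ((mul_eq_zero.mp h1).resolve_right hd)

/-- `U ≤ V` of the same degree are equal -/
theorem eq_of_le_of_degree_eq (hdeg : ∀ v : Place K F, 0 < v.deg)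
    {U V : Divisor K F} (hUV : U ≤ V) (h : Divisor.degree U = Divisor.degree V) : U = V := by
  have h1 : 0 ≤ V - U := sub_nonneg.mpr hUV
  have h2 : Divisor.degree (V - U) = 0 := by rw [map_sub, h, sub_self]
  have := eq_zero_of_nonneg_of_degree_eq_zero hdeg h1 h2
  exact (sub_eq_zero.mp this).symm

/-! ### zero and pole divisors of a function -/

variable [HasPrincipalDivisors K F]

/-- the divisor of zeros of `f` -/
def zeroDiv (f : F) : Divisor K F := posPart (divOf (K := K) f)

/-- the divisor of poles of `f` -/
def poleDiv (f : F) : Divisor K F := negPart (divOf (K := K) f)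

theorem zeroDiv_apply (f : F) (v : Place K F) : zeroDiv (K := K) f v = max (v.ord f) 0 := by
  rw [zeroDiv, posPart_apply, divOf_apply']

theorem poleDiv_apply (f : F) (v : Place K F) : poleDiv (K := K) f v = max (-v.ord f) 0 := by
  rw [poleDiv, negPart_apply, divOf_apply']

theorem zeroDiv_sub_poleDiv (f : F) : zeroDiv (K := K) f - poleDiv (K := K) f = divOf (K := K) f :=
  posPart_sub_negPart _

theorem zeroDiv_nonneg (f : F) : 0 ≤ zeroDiv (K := K) f := posPart_nonneg _

theorem poleDiv_nonneg (f : F) : 0 ≤ poleDiv (K := K) f := negPart_nonneg _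

theorem degree_zeroDiv (f : F) :
    Divisor.degree (zeroDiv (K := K) f) = Divisor.degree (poleDiv (K := K) f) := by
  have h := congrArg Divisor.degree (zeroDiv_sub_poleDiv (K := K) f)
  rw [map_sub, degree_divOf] at h
  exact sub_eq_zero.mp h

/-- subtracting a constant does not change the pole divisor -/
theorem poleDiv_sub_const (y : F) (c : K) (hne : y - algebraMap K F c ≠ 0) :
    poleDiv (K := K) (y - algebraMap K F c) = poleDiv (K := K) y := by
  ext v
  rw [poleDiv_apply, poleDiv_apply]
  rcases lt_or_ge (v.ord y) 0 with h | h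
  · rw [ord_sub_const_of_neg v c h]
  · have h2 := ord_sub_const_nonneg v c h hne
    rw [max_eq_right (by omega), max_eq_right (by omega)]

theorem mem_support_zeroDiv {f : F} {v : Place K F} :
    v ∈ (zeroDiv (K := K) f).support ↔ 0 < v.ord f := by
  rw [Finsupp.mem_support_iff, zeroDiv_apply]
  constructor
  · intro h
    by_contra hle
    push Not at hle
    exact h (max_eq_right hle)
  · intro h
    rw [max_eq_left h.le]; omega

theorem mem_support_poleDiv {f : F} {v : Place K F} :
    v ∈ (poleDiv (K := K) f).support ↔ v.ord f < 0 := by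
  rw [Finsupp.mem_support_iff, poleDiv_apply]
  constructor
  · intro h
    by_contra hle
    push Not at hle
    exact h (max_eq_right (by omega))
  · intro h
    rw [max_eq_left (by omega)]; omega

end Fermat.Agent.S18lib.Tame
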