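/-
S18lib / Tame / Push  (helper5)

No cancellation under `r_*` when the degree is preserved (the abstract core of the tame-branch lemma,
also used by the wild branches): for `y` with nonzero reduction `ȳ` and
`deg (y)_∞ = deg (ȳ)_∞`,

  `r_* (y)_∞ = (ȳ)_∞`,   `r_* (y)_0 = (ȳ)_0`,   `r_* (y - c)_0 = (ȳ - c̄)_0`  (`c ∈ A`),

hence `e_Q = ∑_{P ↦ Q, y(P) = c} e_P`, `r` maps the fibre of `y` over `c` ONTO the fibre of `ȳ`
over `c̄`, and the same for the poles.
-/
import Mathlib
import Fermat.Agent.S18lib.Setup.DatumDiv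
import Fermat.Agent.S18lib.Tame.ZeroPole

set_option autoImplicit false

noncomputable section

namespace Fermat.Agent.S18lib.Tame

open AlgebraicCurve

variable {L : Type*} [Field L] {A : ValuationSubring L}
variable {F : Type*} [Field F] [Algebra L F]
variable {Fk : Type*} [Field Fk] [Algebra (IsLocalRing.ResidueField A) Fk]
variable (D : RedDatum A F Fk)
variable [HasPrincipalDivisors L F] [HasPrincipalDivisors (IsLocalRing.ResidueField A) Fk]

local notation "k" => IsLocalRing.ResidueField A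

/-- `r_* (y)_∞ = (ȳ)_∞` and `r_* (y)_0 = (ȳ)_0` when the degree of the pole divisor is preserved. -/
theorem mapDomain_poleDiv_and_zeroDiv (hdeg : ∀ Q : Place k Fk, 0 < Q.deg) {y : F}
    (hy : D.redF y ≠ 0)
    (hpres : Divisor.degree (poleDiv (K := L) y) = Divisor.degree (poleDiv (K := k) (D.redF y))) :
    Finsupp.mapDomain D.r (poleDiv (K := L) y) = poleDiv (K := k) (D.redF y) ∧
      Finsupp.mapDomain D.r (zeroDiv (K := L) y) = zeroDiv (K := k) (D.redF y) := by
  have hpush := D.mapDomain_divOf hy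
  have hU : 0 ≤ Finsupp.mapDomain D.r (zeroDiv (K := L) y) :=
    Finsupp.mapDomain_nonneg (zeroDiv_nonneg y)
  have hV : 0 ≤ Finsupp.mapDomain D.r (poleDiv (K := L) y) :=
    Finsupp.mapDomain_nonneg (poleDiv_nonneg y)
  have hE : divOf (K := k) (D.redF y) =
      Finsupp.mapDomain D.r (zeroDiv (K := L) y) - Finsupp.mapDomain D.r (poleDiv (K := L) y) := by
    rw [← hpush, ← Finsupp.mapDomain_sub, zeroDiv_sub_poleDiv]
  have hle : poleDiv (K := k) (D.redF y) ≤ Finsupp.mapDomain D.r (poleDiv (K := L) y) :=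
    negPart_le_of_eq_sub hU hV hE
  have hdegeq : Divisor.degree (poleDiv (K := k) (D.redF y)) =
      Divisor.degree (Finsupp.mapDomain D.r (poleDiv (K := L) y)) := by
    rw [D.degree_mapDomain, hpres]
  have hpole := (eq_of_le_of_degree_eq hdeg hle hdegeq).symm
  refine ⟨hpole, ?_⟩
  have h1 : Finsupp.mapDomain D.r (zeroDiv (K := L) y) =
      divOf (K := k) (D.redF y) + Finsupp.mapDomain D.r (poleDiv (K := L) y) := by
    rw [hE]; abel
  rw [h1, hpole, ← zeroDiv_sub_poleDiv]
  abel

theorem mapDomain_poleDiv (hdeg : ∀ Q : Place k Fk, 0 < Q.deg) {y : F} (hy : D.redF y ≠ 0)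
    (hpres : Divisor.degree (poleDiv (K := L) y) = Divisor.degree (poleDiv (K := k) (D.redF y))) :
    Finsupp.mapDomain D.r (poleDiv (K := L) y) = poleDiv (K := k) (D.redF y) :=
  (mapDomain_poleDiv_and_zeroDiv D hdeg hy hpres).1

theorem mapDomain_zeroDiv (hdeg : ∀ Q : Place k Fk, 0 < Q.deg) {y : F} (hy : D.redF y ≠ 0)
    (hpres : Divisor.degree (poleDiv (K := L) y) = Divisor.degree (poleDiv (K := k) (D.redF y))) :
    Finsupp.mapDomain D.r (zeroDiv (K := L) y) = zeroDiv (K := k) (D.redF y) :=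
  (mapDomain_poleDiv_and_zeroDiv D hdeg hy hpres).2

omit [HasPrincipalDivisors L F] [HasPrincipalDivisors (IsLocalRing.ResidueField A) Fk] in
/-- reduction of `y - c`, `c ∈ A` -/
theorem redF_sub_const {y : F} (hyO : y ∈ D.O) (c : A) :
    D.redF (y - algebraMap L F (c : L)) =
      D.redF y - algebraMap k Fk (IsLocalRing.residue A c) := by
  rw [D.redF_sub hyO (D.algebraMap_mem c), D.redF_algebraMap]

/-- **No cancellation in the fibres**: `r_* (y - c)_0 = (ȳ - c̄)_0` for every `c ∈ A` with
`ȳ ≠ c̄`. -/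
theorem mapDomain_zeroDiv_sub_const (hdeg : ∀ Q : Place k Fk, 0 < Q.deg) {y : F} (hyO : y ∈ D.O)
    (hpres : Divisor.degree (poleDiv (K := L) y) = Divisor.degree (poleDiv (K := k) (D.redF y)))
    (c : A) (hc : D.redF y ≠ algebraMap k Fk (IsLocalRing.residue A c)) :
    Finsupp.mapDomain D.r (zeroDiv (K := L) (y - algebraMap L F (c : L))) =
      zeroDiv (K := k) (D.redF y - algebraMap k Fk (IsLocalRing.residue A c)) := by
  have hred := redF_sub_const D hyO c
  have hne : D.redF (y - algebraMap L F (c : L)) ≠ 0 := by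
    rw [hred]; exact sub_ne_zero.mpr hc
  have hne0 : y - algebraMap L F (c : L) ≠ 0 := by
    intro h0
    rw [h0] at hne
    exact hne D.redF_zero
  have hnek : D.redF y - algebraMap k Fk (IsLocalRing.residue A c) ≠ 0 := sub_ne_zero.mpr hc
  have hpres' : Divisor.degree (poleDiv (K := L) (y - algebraMap L F (c : L))) =
      Divisor.degree (poleDiv (K := k) (D.redF (y - algebraMap L F (c : L)))) := by
    rw [hred, poleDiv_sub_const y (c : L) hne0, poleDiv_sub_const (D.redF y) _ hnek, hpres]
  have := mapDomain_zeroDiv D hdeg hne hpres'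
  rw [this, hred]

/-! ### consequences for the fibres -/

/-- the fibre of `y` over `c` is mapped into the fibre of `ȳ` over `c̄` -/
theorem ord_pos_of_ord_pos (hdeg : ∀ Q : Place k Fk, 0 < Q.deg) {y : F} (hyO : y ∈ D.O)
    (hpres : Divisor.degree (poleDiv (K := L) y) = Divisor.degree (poleDiv (K := k) (D.redF y)))
    (c : A) (hc : D.redF y ≠ algebraMap k Fk (IsLocalRing.residue A c))
    {P : Place L F} (hP : 0 < P.ord (y - algebraMap L F (c : L))) :
    0 < (D.r P).ord (D.redF y - algebraMap k Fk (IsLocalRing.residue A c)) := by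
  classical
  have h := mapDomain_zeroDiv_sub_const D hdeg hyO hpres c hc
  have h1 : Finsupp.single P (zeroDiv (K := L) (y - algebraMap L F (c : L)) P) ≤
      zeroDiv (K := L) (y - algebraMap L F (c : L)) := by
    intro v
    rw [Finsupp.single_apply]
    split_ifs with hv
    · rw [hv]
    · exact zeroDiv_nonneg _ v
  have h2 := Finsupp.mapDomain_mono (f := D.r) h1
  rw [Finsupp.mapDomain_single, h] at h2
  have h3 := h2 (D.r P)
  rw [Finsupp.single_eq_same, zeroDiv_apply, zeroDiv_apply, max_eq_left hP.le] at h3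
  by_contra hle
  push Not at hle
  rw [max_eq_right hle] at h3
  omega

/-- **surjectivity on fibres**: every zero of `ȳ - c̄` is the image of a zero of `y - c` -/
theorem exists_ord_pos_of_ord_pos (hdeg : ∀ Q : Place k Fk, 0 < Q.deg) {y : F} (hyO : y ∈ D.O)
    (hpres : Divisor.degree (poleDiv (K := L) y) = Divisor.degree (poleDiv (K := k) (D.redF y)))
    (c : A) (hc : D.redF y ≠ algebraMap k Fk (IsLocalRing.residue A c))
    {Q : Place k Fk} (hQ : 0 < Q.ord (D.redF y - algebraMap k Fk (IsLocalRing.residue A c))) :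
    ∃ P : Place L F, D.r P = Q ∧ 0 < P.ord (y - algebraMap L F (c : L)) := by
  classical
  have h := mapDomain_zeroDiv_sub_const D hdeg hyO hpres c hc
  have hQs : Q ∈ (zeroDiv (K := k)
      (D.redF y - algebraMap k Fk (IsLocalRing.residue A c))).support := mem_support_zeroDiv.mpr hQ
  rw [← h] at hQs
  obtain ⟨P, hP, hPQ⟩ := Finset.mem_image.mp (Finsupp.mapDomain_support hQs)
  exact ⟨P, hPQ, mem_support_zeroDiv.mp hP⟩

/-- poles go to poles -/
theorem ord_neg_of_ord_neg (hdeg : ∀ Q : Place k Fk, 0 < Q.deg) {y : F} (hy : D.redF y ≠ 0)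
    (hpres : Divisor.degree (poleDiv (K := L) y) = Divisor.degree (poleDiv (K := k) (D.redF y)))
    {P : Place L F} (hP : P.ord y < 0) : (D.r P).ord (D.redF y) < 0 := by
  classical
  have h := mapDomain_poleDiv D hdeg hy hpres
  have h1 : Finsupp.single P (poleDiv (K := L) y P) ≤ poleDiv (K := L) y := by
    intro v
    rw [Finsupp.single_apply]
    split_ifs with hv
    · rw [hv]
    · exact poleDiv_nonneg _ v
  have h2 := Finsupp.mapDomain_mono (f := D.r) h1
  rw [Finsupp.mapDomain_single, h] at h2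
  have h3 := h2 (D.r P)
  rw [Finsupp.single_eq_same, poleDiv_apply, poleDiv_apply, max_eq_left (by omega)] at h3
  by_contra hle
  push Not at hle
  rw [max_eq_right (by omega)] at h3
  omega

/-- **surjectivity on poles** -/
theorem exists_ord_neg_of_ord_neg (hdeg : ∀ Q : Place k Fk, 0 < Q.deg) {y : F} (hy : D.redF y ≠ 0)
    (hpres : Divisor.degree (poleDiv (K := L) y) = Divisor.degree (poleDiv (K := k) (D.redF y)))
    {Q : Place k Fk} (hQ : Q.ord (D.redF y) < 0) :
    ∃ P : Place L F, D.r P = Q ∧ P.ord y < 0 := by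
  classical
  have h := mapDomain_poleDiv D hdeg hy hpres
  have hQs : Q ∈ (poleDiv (K := k) (D.redF y)).support := mem_support_poleDiv.mpr hQ
  rw [← h] at hQs
  obtain ⟨P, hP, hPQ⟩ := Finset.mem_image.mp (Finsupp.mapDomain_support hQs)
  exact ⟨P, hPQ, mem_support_poleDiv.mp hP⟩

open Classical in
/-- **`e_Q = ∑_{P ↦ Q} e_P`** at a zero of `ȳ - c̄` -/
theorem ord_eq_sum_ord (hdeg : ∀ Q : Place k Fk, 0 < Q.deg) {y : F} (hyO : y ∈ D.O)
    (hpres : Divisor.degree (poleDiv (K := L) y) = Divisor.degree (poleDiv (K := k) (D.redF y)))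
    (c : A) (hc : D.redF y ≠ algebraMap k Fk (IsLocalRing.residue A c))
    (P₀ : Place L F) :
    max ((D.r P₀).ord (D.redF y - algebraMap k Fk (IsLocalRing.residue A c))) 0 =
      ∑ P ∈ (zeroDiv (K := L) (y - algebraMap L F (c : L))).support with D.r P = D.r P₀,
        P.ord (y - algebraMap L F (c : L)) := by
  classical
  have h := mapDomain_zeroDiv_sub_const D hdeg hyO hpres c hc
  have h1 : (Finsupp.mapDomain D.r (zeroDiv (K := L) (y - algebraMap L F (c : L)))) (D.r P₀) =
      (zeroDiv (K := k) (D.redF y - algebraMap k Fk (IsLocalRing.residue A c))) (D.r P₀) := by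
    rw [h]
  rw [Finsupp.mapDomain_apply_eq_sum, zeroDiv_apply] at h1
  rw [← h1]
  refine Finset.sum_congr rfl fun P hP => ?_
  rw [Finset.mem_filter] at hP
  rw [zeroDiv_apply, max_eq_left (mem_support_zeroDiv.mp hP.1).le]

end Fermat.Agent.S18lib.Tame
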