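/-
S18lib / Tame / Count  (helper5)

Fibre counts under reduction and the abstract tame-branch lemma in Riemann–Hurwitz-count form:

* `card_zerosOf_le`, `card_polesOf_le` : the fibres of `ȳ` are not larger than those of `y`;
* `RHLower K F x n g`   : `-2n + ∑_{b ∈ T} (n - #fibre(b)) + (n - #poles) ≤ 2g - 2` for all finite `T`
  (true in every characteristic: different exponent `≥ e - 1`);
* `genus_le_of_tame`    : if the characteristic-zero side satisfies the reverse inequality for a
  finite set `S ⊆ A` of branch values with pairwise distinct reductions (tame: different exponent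
  `= e - 1`, no other branch values), then `g ≤ g_k`.
-/
import Mathlib
import Fermat.Agent.S18lib.Tame.Push

set_option autoImplicit false

noncomputable section

namespace Fermat.Agent.S18lib.Tame

open AlgebraicCurve

section Generic

variable {K F : Type*} [Field K] [Field F] [Algebra K F]

/-- the set of zeros of a function -/
def zerosOf (f : F) : Set (Place K F) := {v | 0 < v.ord f}

/-- the set of poles of a function -/
def polesOf (f : F) : Set (Place K F) := {v | v.ord f < 0}

theorem mem_zerosOf {f : F} {v : Place K F} : v ∈ zerosOf (K := K) f ↔ 0 < v.ord f := Iff.rfl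

theorem mem_polesOf {f : F} {v : Place K F} : v ∈ polesOf (K := K) f ↔ v.ord f < 0 := Iff.rfl

variable [HasPrincipalDivisors K F]

theorem zerosOf_eq_support (f : F) :
    zerosOf (K := K) f = ((zeroDiv (K := K) f).support : Set (Place K F)) := by
  ext v
  rw [mem_zerosOf, Finset.mem_coe, mem_support_zeroDiv]

theorem polesOf_eq_support (f : F) :
    polesOf (K := K) f = ((poleDiv (K := K) f).support : Set (Place K F)) := by
  ext v
  rw [mem_polesOf, Finset.mem_coe, mem_support_poleDiv]

theorem finite_zerosOf (f : F) : (zerosOf (K := K) f).Finite := by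
  rw [zerosOf_eq_support]; exact Finset.finite_toSet _

theorem finite_polesOf (f : F) : (polesOf (K := K) f).Finite := by
  rw [polesOf_eq_support]; exact Finset.finite_toSet _

/-- Riemann–Hurwitz lower bound for `2g - 2` in fibre-count form (valid in any characteristic,
since every different exponent is at least `e - 1`). -/
def RHLower (K : Type*) {F : Type*} [Field K] [Field F] [Algebra K F] (x : F) (n g : ℕ) : Prop :=
  ∀ T : Finset K,
    (∑ b ∈ T, ((n : ℤ) - Nat.card (zerosOf (K := K) (x - algebraMap K F b))))
      + ((n : ℤ) - Nat.card (polesOf (K := K) x)) - 2 * (n : ℤ) ≤ 2 * (g : ℤ) - 2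

end Generic

section Datum

variable {L : Type*} [Field L] {A : ValuationSubring L}
variable {F : Type*} [Field F] [Algebra L F]
variable {Fk : Type*} [Field Fk] [Algebra (IsLocalRing.ResidueField A) Fk]
variable (D : RedDatum A F Fk)
variable [HasPrincipalDivisors L F] [HasPrincipalDivisors (IsLocalRing.ResidueField A) Fk]

local notation "k" => IsLocalRing.ResidueField A

/-- the fibre of `ȳ` over `c̄` is not larger than the fibre of `y` over `c` -/
theorem card_zerosOf_le (hdeg : ∀ Q : Place k Fk, 0 < Q.deg) {y : F} (hyO : y ∈ D.O)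
    (hpres : Divisor.degree (poleDiv (K := L) y) = Divisor.degree (poleDiv (K := k) (D.redF y)))
    (c : A) (hc : D.redF y ≠ algebraMap k Fk (IsLocalRing.residue A c)) :
    Nat.card (zerosOf (K := k) (D.redF y - algebraMap k Fk (IsLocalRing.residue A c))) ≤
      Nat.card (zerosOf (K := L) (y - algebraMap L F (c : L))) := by
  haveI : Finite (zerosOf (K := L) (y - algebraMap L F (c : L))) :=
    (finite_zerosOf _).to_subtype
  let φ : zerosOf (K := L) (y - algebraMap L F (c : L)) →
      zerosOf (K := k) (D.redF y - algebraMap k Fk (IsLocalRing.residue A c)) :=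
    fun P => ⟨D.r P.1, ord_pos_of_ord_pos D hdeg hyO hpres c hc P.2⟩
  have hφ : Function.Surjective φ := by
    rintro ⟨Q, hQ⟩
    obtain ⟨P, hPQ, hP⟩ := exists_ord_pos_of_ord_pos D hdeg hyO hpres c hc hQ
    exact ⟨⟨P, hP⟩, Subtype.ext hPQ⟩
  exact Nat.card_le_card_of_surjective φ hφ

/-- `ȳ` has at most as many poles as `y` -/
theorem card_polesOf_le (hdeg : ∀ Q : Place k Fk, 0 < Q.deg) {y : F} (hy : D.redF y ≠ 0)
    (hpres : Divisor.degree (poleDiv (K := L) y) = Divisor.degree (poleDiv (K := k) (D.redF y))) :
    Nat.card (polesOf (K := k) (D.redF y)) ≤ Nat.card (polesOf (K := L) y) := by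
  haveI : Finite (polesOf (K := L) y) := (finite_polesOf _).to_subtype
  let φ : polesOf (K := L) y → polesOf (K := k) (D.redF y) :=
    fun P => ⟨D.r P.1, ord_neg_of_ord_neg D hdeg hy hpres P.2⟩
  have hφ : Function.Surjective φ := by
    rintro ⟨Q, hQ⟩
    obtain ⟨P, hPQ, hP⟩ := exists_ord_neg_of_ord_neg D hdeg hy hpres hQ
    exact ⟨⟨P, hP⟩, Subtype.ext hPQ⟩
  exact Nat.card_le_card_of_surjective φ hφ

/-- **Abstract tame-branch lemma** (Riemann–Hurwitz-count form).
`y ∈ O` a good function (`ȳ` non-constant, degree of the pole divisor preserved), `S ⊆ A` a finite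
set with pairwise distinct reductions such that the characteristic-zero genus satisfies
`2g - 2 ≤ -2n + ∑_{a ∈ S} (n - #fibre(a)) + (n - #poles)` (tame, all finite branch values in `S`);
then `g ≤ g_k` for every `g_k` satisfying the general lower bound `RHLower`. -/
theorem genus_le_of_tame (hdeg : ∀ Q : Place k Fk, 0 < Q.deg) {y : F} (hyO : y ∈ D.O)
    (hpres : Divisor.degree (poleDiv (K := L) y) = Divisor.degree (poleDiv (K := k) (D.redF y)))
    (hnc : ∀ c : A, D.redF y ≠ algebraMap k Fk (IsLocalRing.residue A c))
    (S : Finset A) (hinj : Set.InjOn (IsLocalRing.residue A) (S : Set A)) {n g gk : ℕ}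
    (h0 : 2 * (g : ℤ) - 2 ≤
      (∑ a ∈ S, ((n : ℤ) - Nat.card (zerosOf (K := L) (y - algebraMap L F ((a : A) : L)))))
        + ((n : ℤ) - Nat.card (polesOf (K := L) y)) - 2 * (n : ℤ))
    (hk : RHLower k (D.redF y) n gk) : g ≤ gk := by
  classical
  have hy : D.redF y ≠ 0 := by
    have := hnc 0
    rwa [map_zero, map_zero] at this
  have hk' := hk (S.image (IsLocalRing.residue A))
  rw [Finset.sum_image hinj] at hk'
  have hsum : (∑ a ∈ S, ((n : ℤ) - Nat.card (zerosOf (K := L) (y - algebraMap L F ((a : A) : L)))))
      ≤ ∑ a ∈ S, ((n : ℤ) - Nat.card (zerosOf (K := k)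
          (D.redF y - algebraMap k Fk (IsLocalRing.residue A a)))) := by
    refine Finset.sum_le_sum fun a _ => ?_
    have := card_zerosOf_le D hdeg hyO hpres a (hnc a)
    have h' : (Nat.card (zerosOf (K := k)
        (D.redF y - algebraMap k Fk (IsLocalRing.residue A a))) : ℤ) ≤
        Nat.card (zerosOf (K := L) (y - algebraMap L F ((a : A) : L))) := by exact_mod_cast this
    linarith
  have hpol : (Nat.card (polesOf (K := k) (D.redF y)) : ℤ) ≤ Nat.card (polesOf (K := L) y) := by
    exact_mod_cast card_polesOf_le D hdeg hy hpres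
  have : 2 * (g : ℤ) - 2 ≤ 2 * (gk : ℤ) - 2 := by linarith
  omega

end Datum

end Fermat.Agent.S18lib.Tame
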